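import Fermat.Agent.S37.Rim.Assembly
import Fermat.Agent.S37.Red.ModG
import Fermat.Agent.S37.Red.H160.FibreSumMain
import Fermat.Agent.S37.Red.H940.Main
import Fermat.Agent.S37.Red.H208.H1
import Fermat.Agent.S37.H568.ValueGroup

/-!
# S37 / node_rim, leaf RIM-FC (helper399): `Rim.FCStatement A M`, unconditional

`fc M ℓ hℓ hℓM A hA : Rim.FCStatement A M` for every valuation subring `A` of `ℚ̄` over a prime
`ℓ ∤ M`: conservation of number in the fibres of `j` (leaf FC of `Rim/Spec.lean`, first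
hypothesis of `Rim.node_rim_of_leaves`).

Pure bridge between landed pieces:
* `Red.modGj` (helper40, `Red/ModG.lean`): the modular reduction datum, whose valuation ring is
  the ring `V` of fractions of integral `q`-series of `Rim.ctx A M`;
* `H568.valueGroupHyp_modular` + `H98.coreData_residueField`: the value-group hypothesis;
* `Red.H208.good_H1`: `[F_M : ℚ̄(j)] = [F_{M,k} : k(j̄)]`, finiteness and separability;
* `Red.H160.fibreSumStatement` (RED-A, on top of RED-A1 `Red.H399.normRed`): fibre sums for an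
  auxiliary coordinate, applied to `t = j` (points `c ∈ k`) and `t = j⁻¹`, `c = 0` (the point `∞`);
* `H940.Ctx.cover_tube`, `disj_tube_inf`: the tube over `∞` is the residue disc `j⁻¹ ≡ 0`.

Reusable abstract statements: `auxCoord_inv`, `fc_aux`.
-/

set_option autoImplicit false
set_option synthInstance.maxHeartbeats 400000
set_option linter.style.haveILetI false
set_option linter.unusedSectionVars false

noncomputable section

namespace Fermat.Agent.S37.Rim.H399

open AlgebraicCurve ModularCurve HahnSeries IsLocalRing IntermediateField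
open Fermat.Agent.S37.H940

section Abstract

universe u

variable {K k F Fk : Type u} [Field K] [Field k] [Field F] [Field Fk]
  [Algebra K F] [Algebra k Fk] [IsAlgClosed K] [CharZero K] [IsAlgClosed k]
  {A : ValuationSubring K} {π : A →+* k} (G : Red.Datum A π F Fk)

/-- the inverse of an auxiliary coordinate is an auxiliary coordinate -/
theorem auxCoord_inv {t : F} (ht : G.AuxCoord t) : G.AuxCoord t⁻¹ := by
  have hred : G.red t = G.ρ ⟨t, ht.mem⟩ := Red.H399.red_eq_of_mem G ht.mem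
  have htr : Transcendental k ((Red.H940.ctx G).ρ ⟨t, ht.mem⟩) := by
    have := ht.transc
    rwa [hred] at this
  have hne : (Red.H940.ctx G).ρ ⟨t, ht.mem⟩ ≠ 0 :=
    ρ_ne_zero_of_transcendental (Red.H940.ctx G) ⟨t, ht.mem⟩ htr
  have hmem : t⁻¹ ∈ G.O := (Red.H940.ctx G).inv_mem ⟨t, ht.mem⟩ hne
  have hredi : G.red t⁻¹ = (G.red t)⁻¹ := by
    rw [Red.H399.red_eq_of_mem G hmem, hred]
    exact (Red.H940.ctx G).ρ_inv ⟨t, ht.mem⟩ hne
  have htri : Transcendental k (G.red t)⁻¹ := by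
    have := transcendental_ρ_xinv (Red.H940.ctx G) ⟨t, ht.mem⟩ htr
    rw [ρ_xinv] at this
    rw [hred]
    exact this
  have e1 : K⟮t⟯ = K⟮t⁻¹⟯ := Fermat.Agent.Lib.RR.adjoin_inv_eq t
  have e2 : k⟮G.red t⟯ = k⟮(G.red t)⁻¹⟯ := Fermat.Agent.Lib.RR.adjoin_inv_eq (G.red t)
  refine Red.H940.auxCoord_of_eq G hmem hredi htri ?_ ?_ ?_ ?_
  · exact Red.H940.transport_adjoin (fun L => FiniteDimensional L F) e1 ht.finite
  · exact Red.H940.transport_adjoin (fun L => FiniteDimensional L Fk) e2 ht.finite_k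
  · exact Red.H940.transport_adjoin (fun L => Algebra.IsSeparable L Fk) e2 ht.sep_k
  · have h1 : Module.finrank K⟮t⁻¹⟯ F = Module.finrank K⟮t⟯ F :=
      Red.H940.transport_adjoin (fun L => Module.finrank L F = Module.finrank K⟮t⟯ F) e1 rfl
    have h2 : Module.finrank k⟮(G.red t)⁻¹⟯ Fk = Module.finrank k⟮G.red t⟯ Fk :=
      Red.H940.transport_adjoin
        (fun L => Module.finrank L Fk = Module.finrank k⟮G.red t⟯ Fk) e2 rfl
    rw [h1, h2]
    exact ht.finrank_eq

/-- **Conservation of number over a residue disc of an auxiliary coordinate**, in `finsum` form: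
RED-A (`Red.H160.fibreSumStatement`) restated for the tubes of `Rim/Spec.lean`. -/
theorem fc_aux {t : F} (ht : G.AuxCoord t)
    (hfin : ∀ u : F, u ≠ 0 → {P : Place K F | P.ord u ≠ 0}.Finite) (c : A)
    (𝔊 : Finset (Place k Fk))
    (h𝔊 : ∀ Q, Q ∈ 𝔊 ↔ InMax Q (G.red t - algebraMap k Fk (π c)))
    (u : F) (hu : u ∈ G.O) (hρ : G.ρ ⟨u, hu⟩ ≠ 0) :
    ∑ᶠ P ∈ {P : Place K F | ∃ a : A, π a = π c ∧ InMax P (t - algebraMap K F (a : K))},
        P.ord u = ∑ Q ∈ 𝔊, Q.ord (G.ρ ⟨u, hu⟩) := by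
  classical
  have hu0 : u ≠ 0 := by
    rintro rfl
    apply hρ
    have : (⟨0, hu⟩ : G.O) = 0 := rfl
    rw [this, map_zero]
  have hfinS : {P : Place K F | (∃ a : A, π a = π c ∧
      InMax P (t - algebraMap K F (a : K))) ∧ P.ord u ≠ 0}.Finite :=
    (hfin u hu0).subset fun P hP => hP.2
  have key := Red.H160.fibreSumStatement G t ht u hu hρ c hfinS.toFinset 𝔊
    (by
      rintro P hP ⟨a, ha, hval⟩
      rw [Set.Finite.mem_toFinset]
      exact ⟨⟨a, ha, (Red.H940.valAt_iff_inMax P _ _).mp hval⟩, hP⟩)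
    (by
      intro P hP
      rw [Set.Finite.mem_toFinset] at hP
      obtain ⟨⟨a, ha, hval⟩, -⟩ := hP
      exact ⟨a, ha, (Red.H940.valAt_iff_inMax P _ _).mpr hval⟩)
    (by
      intro Q _ hval
      exact (h𝔊 Q).2 ((Red.H940.valAt_iff_inMax Q _ _).mp hval))
    (by
      intro Q hQ
      exact (Red.H940.valAt_iff_inMax Q _ _).mpr ((h𝔊 Q).1 hQ))
  rw [key]
  apply finsum_mem_eq_sum_of_inter_support_eq
  ext P
  simp only [Set.mem_inter_iff, Function.mem_support, ne_eq, Set.Finite.coe_toFinset,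
    Set.mem_ofPred_eq]
  constructor
  · rintro ⟨h1, h2⟩
    exact ⟨⟨h1, h2⟩, h2⟩
  · rintro ⟨⟨h1, h2⟩, -⟩
    exact ⟨h1, h2⟩

/-- the tube over `∞` of a coordinate is the residue disc `x⁻¹ ≡ 0` -/
theorem tube_inf_iff [FiniteDimensional K⟮G.x⟯ F] (P : Place K F) :
    (¬ ∃ a : A, InMax P (G.x - algebraMap K F (a : K))) ↔
      ∃ a : A, π a = π 0 ∧ InMax P (G.x⁻¹ - algebraMap K F (a : K)) := by
  haveI : FiniteDimensional K⟮((Red.H940.cx G : (Red.H940.ctx G).V) : F)⟯ F :=
    inferInstanceAs (FiniteDimensional K⟮G.x⟯ F)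
  constructor
  · intro hP
    rcases cover_tube (Red.H940.ctx G) (Red.H940.cx G) (Red.H940.transc_cx G) P with
      ⟨c, a, -, ha⟩ | ⟨a, ha, hval⟩
    · exact absurd ⟨a, ha⟩ hP
    · exact ⟨a, by rw [map_zero]; exact ha, hval⟩
  · rintro ⟨a, ha, hval⟩ ⟨a', ha'⟩
    rw [map_zero] at ha
    exact disj_tube_inf (Red.H940.ctx G) (Red.H940.cx G) (Red.H940.transc_cx G) P
      (c := π a') ⟨a', rfl, ha'⟩ ⟨a, ha, hval⟩

/-- the points over `∞` are the zeros of `x̄⁻¹` -/
theorem pts_inf_iff (Q : Place k Fk) :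
    Q.ord G.xk < 0 ↔ InMax Q (G.red G.x⁻¹ - algebraMap k Fk (π 0)) := by
  have h0 : G.xk ≠ 0 := Red.H940.xk_ne_zero G
  rw [Red.H940.red_xinv G, map_zero, map_zero, sub_zero]
  constructor
  · intro h
    refine inMax_of_ord_pos ?_
    rw [Q.ord_inv]
    omega
  · intro h
    have := h.ord_pos (inv_ne_zero h0)
    rw [Q.ord_inv] at this
    omega

end Abstract

section Modular

variable (M ℓ : ℕ) [NeZero M] (hℓ : ℓ.Prime) (hℓM : ¬ ℓ ∣ M)
  (A : ValuationSubring Qb) (hA : A.LiesOverPrime ℓ)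

/-- `j̄` (as the reduction of the integral series `j`) is transcendental over `k` -/
theorem transcendental_jk : Transcendental (kA A) (Red.jk M A) := by
  have h := Fermat.Agent.S18.H739.transcendental_jC (kA A) M
  have e : Red.jk M A = ⟨jqModC (kA A), jqModC_mem_full (kA A) M⟩ :=
    Subtype.ext (coeffMap_jqModC (residue A))
  rw [e]
  exact h

include hℓ hℓM hA

/-- the value-group hypothesis for `(F_M, F_{M,k})` -/
theorem modVG : Red.ModVG M A :=
  Fermat.Agent.S37.H568.valueGroupHyp_modular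
    (Fermat.Agent.S37.H98.coreData_residueField M ℓ hℓ hℓM A hA)

theorem natCast_ne_zero : ((M : ℕ) : kA A) ≠ 0 := by
  haveI : CharP (kA A) ℓ := Fermat.Agent.S37.H98.charP_residueField A ℓ hℓ hA
  intro h
  exact hℓM ((CharP.cast_eq_zero_iff (kA A) ℓ M).mp h)

/-- **LEAF FC** of `node_rim`: conservation of number in the fibres of `j`. -/
theorem fc : FCStatement A M := by
  classical
  haveI : IsAlgClosed (kA A) := Fermat.Agent.S18.H9.resAlgClosed _ A
  haveI : Fermat.Agent.Lib.RR.FF1 Qb (FM M) :=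
    Fermat.Agent.Lib.RR.H864.ff1_modularFunctionFieldBar M
  have hVG : Red.ModVG M A := modVG M ℓ hℓ hℓM A hA
  have htr : Transcendental (kA A) (Red.jk M A) := transcendental_jk M A
  let G : Red.Datum A (residue A) (Red.FN M) (Red.FNk A M) := Red.modGj hVG htr
  have hx : ((G.x : Red.FN M) : LaurentSeries Qb) = jqModC Qb :=
    coeffMap_jqModC A.subtype
  have hGxk : G.xk = Red.jk M A :=
    Red.modρ_ofSeries hVG (jqModC A) (Red.coeffMap_jqModC_mem_bar M A)
      (Red.coeffMap_jqModC_mem_fullC M A)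
  have hxk : ((G.xk : Red.FNk A M) : LaurentSeries (kA A)) = jqModC (kA A) := by
    rw [hGxk]
    exact coeffMap_jqModC (residue A)
  obtain ⟨h1, h2, h3, h4⟩ :=
    Red.H208.good_H1 M A (natCast_ne_zero M ℓ hℓ hℓM A hA) G hx hxk
  have auxx : G.AuxCoord G.x :=
    Red.H940.auxCoord_of_eq G G.x_mem (Red.H399.red_eq_of_mem G G.x_mem) G.xk_transc h1 h2 h3 h4
  have auxi : G.AuxCoord G.x⁻¹ := auxCoord_inv G auxx
  have hfin : ∀ u : Red.FN M, u ≠ 0 → {P : Place Qb (Red.FN M) | P.ord u ≠ 0}.Finite :=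
    fun u hu => finite_ord_ne_zero (K := Qb) u hu
  have hGx : G.x = xF M := by
    apply Subtype.ext
    show coeffMap A.subtype (jqModC A) = coeffEmb Qb jq
    rw [coeffMap_jqModC, ← jqModC_rat, coeffEmb, coeffMap_jqModC]
  have hGxk' : G.xk = xk A M := Subtype.ext hxk
  intro c 𝔊 h𝔊 u hu
  have huO : (u : FM M) ∈ G.O := u.2
  have hρ : G.ρ ⟨(u : FM M), huO⟩ ≠ 0 := hu
  cases c with
  | some c =>
    obtain ⟨a, rfl⟩ := residue_surjective (R := A) c
    have key := fc_aux G auxx hfin a 𝔊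
      (by
        intro Q
        rw [h𝔊 Q, Red.H399.red_eq_of_mem G G.x_mem]
        show InMax Q (xk A M - _) ↔ InMax Q (G.xk - _)
        rw [hGxk'])
      (u : FM M) huO hρ
    rw [hGx] at key
    exact key
  | none =>
    have key := fc_aux G auxi hfin 0 𝔊
      (by
        intro Q
        rw [h𝔊 Q, ← pts_inf_iff G Q, hGxk']
        rfl)
      (u : FM M) huO hρ
    have hset : tube A M none = {P : Place Qb (Red.FN M) | ∃ a : A,
        residue A a = residue A 0 ∧ InMax P (G.x⁻¹ - algebraMap Qb (Red.FN M) (a : Qb))} := by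
      ext P
      haveI := h1
      rw [Set.mem_ofPred_eq, ← tube_inf_iff G P, hGx]
      rfl
    rw [hset]
    exact key

end Modular

end Fermat.Agent.S37.Rim.H399
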